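import Fermat.Agent.S48.Cheb.CycDensity.Norms
import Fermat.Agent.F4.Ray.RayPrimes

/-!
# S48 P5 seat (C), helpers: `clsT` kills the norms from the fixed field of `{1, σ₋₁}` (helper30)

`M` = the fixed field of a subgroup `H` of the kernel of `σ ↦ χ(σ)²`.  The norms of the ideals of
`M` prime to `t` are `± 1` modulo `t` (Frobenius elements of `K/M` lie in `H`), so `clsT F t`
kills the relative norms from `M`; `F4Ray.rayPrimeSum` then gives the lower density `1/[M:F]` of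
the primes of `F` of trivial class.
-/

set_option autoImplicit false

open NumberField IsDedekindDomain

namespace Fermat.Agent.S48Cheb

open Fermat.Agent.FrobDensity (normWeight)

variable {F K : Type} [Field F] [NumberField F] [Field K] [NumberField K] [Algebra F K]
  [IsGalois F K] {t : ℕ}

/-- The norm of a prime of `M` prime to `t` has square `1` modulo `t`. -/
theorem cd_primeM_sq (hC2 : CycArtin) (ht : t.Prime) {ζ : K} (hζ : IsPrimitiveRoot ζ t)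
    (χ : (K ≃ₐ[F] K) →* (ZMod t)ˣ)
    (hχ : ∀ σ : K ≃ₐ[F] K, σ ζ = ζ ^ ((χ σ : (ZMod t)ˣ) : ZMod t).val)
    (H : Subgroup (K ≃ₐ[F] K)) (hH : H ≤ (cdSqHom χ).ker)
    (𝔓 : Ideal (𝓞 (IntermediateField.fixedField H))) (h𝔓 : 𝔓.IsPrime) (h𝔓0 : 𝔓 ≠ ⊥)
    (hcop : (Ideal.absNorm 𝔓).Coprime t) : ((Ideal.absNorm 𝔓 : ℕ) : ZMod t) ^ 2 = 1 := by
  obtain ⟨P, σ, hP, _, hP𝔓, hσ⟩ :=
    cdFrob_exists (F := IntermediateField.fixedField H) (K := K) 𝔓 h𝔓 h𝔓0
  set g : K ≃ₐ[F] K := σ.restrictScalars F with hg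
  have hgH : g ∈ H := by
    have h1 : g ∈ (IntermediateField.fixedField H).fixingSubgroup := by
      intro x
      exact σ.commutes x
    rwa [IntermediateField.fixingSubgroup_fixedField] at h1
  have h1 := cd_frob_norm hC2 ht hζ 𝔓 hcop P hP hP𝔓 σ hσ (χ g) (hχ g)
  have h2 : χ g ^ 2 = 1 := hH hgH
  rw [h1, ← Units.val_pow_eq_pow_val, h2, Units.val_one]

/-- The norm of an ideal of `M` prime to `t` has square `1` modulo `t`. -/
theorem cd_normM_sq (hC2 : CycArtin) (ht : t.Prime) {ζ : K} (hζ : IsPrimitiveRoot ζ t)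
    (χ : (K ≃ₐ[F] K) →* (ZMod t)ˣ)
    (hχ : ∀ σ : K ≃ₐ[F] K, σ ζ = ζ ^ ((χ σ : (ZMod t)ˣ) : ZMod t).val)
    (H : Subgroup (K ≃ₐ[F] K)) (hH : H ≤ (cdSqHom χ).ker)
    (A : Ideal (𝓞 (IntermediateField.fixedField H))) :
    (Ideal.absNorm A).Coprime t → ((Ideal.absNorm A : ℕ) : ZMod t) ^ 2 = 1 := by
  induction A using UniqueFactorizationMonoid.induction_on_prime with
  | h₁ =>
    intro hcop
    have h0 : Ideal.absNorm (0 : Ideal (𝓞 (IntermediateField.fixedField H))) = 0 := by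
      rw [Ideal.zero_eq_bot, Ideal.absNorm_bot]
    rw [h0] at hcop
    have ht1 : t = 1 := by simpa using hcop
    exact absurd ht1 ht.ne_one
  | h₂ J hJu =>
    intro _
    have hJ : J = ⊤ := by
      rw [← Ideal.one_eq_top]
      exact isUnit_iff_eq_one.mp hJu
    rw [hJ, Ideal.absNorm_top, Nat.cast_one, one_pow]
  | h₃ J 𝔓 hJ0 h𝔓 ih =>
    intro hcop
    have hnorm : Ideal.absNorm (𝔓 * J) = Ideal.absNorm 𝔓 * Ideal.absNorm J := map_mul _ _ _
    rw [hnorm] at hcop ⊢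
    have hcop𝔓 : (Ideal.absNorm 𝔓).Coprime t := Nat.Coprime.coprime_mul_right hcop
    have hcopJ : (Ideal.absNorm J).Coprime t := Nat.Coprime.coprime_mul_left hcop
    rw [Nat.cast_mul, mul_pow, ih hcopJ, mul_one]
    exact cd_primeM_sq hC2 ht hζ χ hχ H hH 𝔓 (Ideal.isPrime_of_prime h𝔓) h𝔓.ne_zero hcop𝔓

/-- `clsT F t` kills the relative norms from `M`. -/
theorem cd_clsT_relNorm (hC1 : ClsTStatement) (hC2 : CycArtin) (ht : t.Prime) {ζ : K}
    (hζ : IsPrimitiveRoot ζ t) (χ : (K ≃ₐ[F] K) →* (ZMod t)ˣ)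
    (hχ : ∀ σ : K ≃ₐ[F] K, σ ζ = ζ ^ ((χ σ : (ZMod t)ˣ) : ZMod t).val)
    (H : Subgroup (K ≃ₐ[F] K)) (hH : H ≤ (cdSqHom χ).ker)
    (A : Ideal (𝓞 (IntermediateField.fixedField H))) (hA : A ≠ ⊥)
    (hAm : Ideal.relNorm (𝓞 F) A ⊔ Ideal.span {(t : 𝓞 F)} = ⊤) :
    clsT F t (Ideal.relNorm (𝓞 F) A) = 1 := by
  have hne : Ideal.relNorm (𝓞 F) A ≠ ⊥ := by
    rw [Ne, Ideal.relNorm_eq_bot_iff]
    exact hA
  have h1 := (hC1 F t ht).2 _ hne hAm
  have hcop := Fermat.Agent.F4Rec.coprimeAbsNorm F t _ hAm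
  rw [Ideal.absNorm_relNorm] at h1 hcop
  rw [cd_normM_sq hC2 ht hζ χ hχ H hH A hcop] at h1
  apply Subtype.ext
  apply Units.ext
  rw [h1]
  rfl

/-- `[M:F] = #G_F` for `M` the fixed field of the kernel of `σ ↦ χ(σ)²`, and `2 #G_F = [K:F]`. -/
theorem cd_finrank_fixed (hC2 : CycArtin) (ht : t.Prime) (ht2 : t ≠ 2) {ζ : K}
    (hζ : IsPrimitiveRoot ζ t) (χ : (K ≃ₐ[F] K) →* (ZMod t)ˣ)
    (hχ : ∀ σ : K ≃ₐ[F] K, σ ζ = ζ ^ ((χ σ : (ZMod t)ˣ) : ZMod t).val)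
    (hinj : Function.Injective χ) {τ : K ≃ₐ[F] K} (hτ : χ τ = -1) :
    Module.finrank F (IntermediateField.fixedField (cdSqHom χ).ker) =
        Nat.card (normSqGroup F t) ∧
      2 * Nat.card (normSqGroup F t) = Module.finrank F K := by
  have : Fact t.Prime := ⟨ht⟩
  have h1 : 2 * Nat.card (cdSq χ) = Nat.card (K ≃ₐ[F] K) := cdSq_card ht2 hinj hτ
  rw [IsGalois.card_aut_eq_finrank] at h1
  have h2 : Module.finrank (IntermediateField.fixedField (cdSqHom χ).ker) K = 2 := by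
    rw [IntermediateField.finrank_fixedField_eq_card, cdSqHom_ker_card ht2 hinj hτ]
  have h3 := Module.finrank_mul_finrank F (IntermediateField.fixedField (cdSqHom χ).ker) K
  rw [h2] at h3
  rw [cd_normSqGroup_eq hC2 ht hζ χ hχ hinj]
  refine ⟨?_, h1⟩
  omega

end Fermat.Agent.S48Cheb
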