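import Fermat.Agent.S48.Cheb.Defs

/-!
# S48 P5 seat (C), sub-seat C-SUMS (helper23): from prime ideals to rational primes

A nonnegative weight `f ≤ N𝔮^{-s}` on the primes of `F` which vanishes unless `Q (N𝔮)` sums to at
most `∑_p [Q p] idealCount F p · p^{-s} + highSum F s`.
-/

set_option autoImplicit false

open NumberField IsDedekindDomain

namespace Fermat.Agent.S48Cheb

open Fermat.Agent.FrobDensity (normWeight idealCount highSum)

section

variable (F : Type) [Field F] [NumberField F] (Q : ℕ → Prop)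

/-- The weight restricted to the ideals of prime norm `p` with `Q p`. -/
noncomputable def cdWeight (s : ℝ) : Ideal (𝓞 F) → ℝ :=
  Set.indicator {I : Ideal (𝓞 F) | (Ideal.absNorm I).Prime ∧ Q (Ideal.absNorm I)}
    (normWeight F s)

variable {F Q}

theorem cdWeight_nonneg (s : ℝ) (I : Ideal (𝓞 F)) : 0 ≤ cdWeight F Q s I :=
  Set.indicator_nonneg (fun I _ => FrobDensity.normWeight_nonneg s I) I

theorem cdWeight_le (s : ℝ) (I : Ideal (𝓞 F)) : cdWeight F Q s I ≤ normWeight F s I :=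
  Set.indicator_le_self' (fun I _ => FrobDensity.normWeight_nonneg s I) I

variable (F Q)

theorem cd_summable_cdWeight {s : ℝ} (hs : 1 < s) : Summable (cdWeight F Q s) :=
  (FrobDensity.summable_normWeight F hs).indicator _

open Classical in
theorem cd_tsum_fiber (s : ℝ) (n : ℕ) :
    ∑' I : {I : Ideal (𝓞 F) // Ideal.absNorm I = n}, cdWeight F Q s I.1
      = Set.indicator {n : ℕ | n.Prime}
          (fun n => (if Q n then (idealCount F n : ℝ) else 0) * (n : ℝ) ^ (-s)) n := by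
  by_cases hn : n.Prime
  · rw [Set.indicator_of_mem (show n ∈ {n : ℕ | n.Prime} from hn)]
    by_cases hQ : Q n
    · rw [if_pos hQ]
      rw [show (idealCount F n : ℝ) * (n : ℝ) ^ (-s) =
        (FrobDensity.idealCountAux F n : ℝ) * (n : ℝ) ^ (-s) from rfl,
        ← FrobDensity.tsum_fiber_normWeight s n]
      refine tsum_congr fun I => ?_
      have hI : (Ideal.absNorm I.1).Prime ∧ Q (Ideal.absNorm I.1) := by
        rw [I.2]
        exact ⟨hn, hQ⟩
      exact Set.indicator_of_mem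
        (show I.1 ∈ {I : Ideal (𝓞 F) | (Ideal.absNorm I).Prime ∧ Q (Ideal.absNorm I)} from hI) _
    · rw [if_neg hQ, zero_mul]
      have : ∀ I : {I : Ideal (𝓞 F) // Ideal.absNorm I = n}, cdWeight F Q s I.1 = 0 :=
        fun I => Set.indicator_of_notMem
          (show I.1 ∉ {I : Ideal (𝓞 F) | (Ideal.absNorm I).Prime ∧ Q (Ideal.absNorm I)} from
            fun h => hQ (I.2 ▸ h.2)) _
      simp [this]
  · rw [Set.indicator_of_notMem (show n ∉ {n : ℕ | n.Prime} from hn)]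
    have : ∀ I : {I : Ideal (𝓞 F) // Ideal.absNorm I = n}, cdWeight F Q s I.1 = 0 :=
      fun I => Set.indicator_of_notMem
        (show I.1 ∉ {I : Ideal (𝓞 F) | (Ideal.absNorm I).Prime ∧ Q (Ideal.absNorm I)} from
          fun h => hn (I.2 ▸ h.1)) _
    simp [this]

open Classical in
theorem cd_tsum_cdWeight_eq {s : ℝ} (hs : 1 < s) :
    ∑' I, cdWeight F Q s I
      = ∑' p : Nat.Primes, (if Q (p : ℕ) then (idealCount F p : ℝ) else 0) *
          ((p : ℕ) : ℝ) ^ (-s) := by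
  have hsum := cd_summable_cdWeight F Q hs
  rw [← (Equiv.sigmaFiberEquiv (fun I : Ideal (𝓞 F) => Ideal.absNorm I)).tsum_eq]
  rw [← (Equiv.sigmaFiberEquiv (fun I : Ideal (𝓞 F) => Ideal.absNorm I)).summable_iff] at hsum
  change Summable (fun p : (Σ n : ℕ, {I : Ideal (𝓞 F) // Ideal.absNorm I = n}) =>
    cdWeight F Q s p.2.1) at hsum
  change ∑' p : (Σ n : ℕ, {I : Ideal (𝓞 F) // Ideal.absNorm I = n}),
    cdWeight F Q s p.2.1 = _
  rw [hsum.tsum_sigma]
  rw [tsum_congr fun n => cd_tsum_fiber F Q s n]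
  rw [← tsum_subtype {n : ℕ | n.Prime}
    (fun n => (if Q n then (idealCount F n : ℝ) else 0) * (n : ℝ) ^ (-s))]
  rfl

theorem cd_tsum_cdWeight_eq_tsum_prime (s : ℝ) :
    ∑' I, cdWeight F Q s I
      = ∑' 𝔭 : HeightOneSpectrum (𝓞 F), cdWeight F Q s 𝔭.asIdeal := by
  refine (Function.Injective.tsum_eq FrobDensity.asIdeal_injective ?_).symm
  intro I hI
  have hI' : I ∈ {I : Ideal (𝓞 F) | (Ideal.absNorm I).Prime ∧ Q (Ideal.absNorm I)} := by
    by_contra h
    exact hI (Set.indicator_of_notMem h _)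
  have hprime : I.IsPrime := Ideal.isPrime_of_irreducible_absNorm
    (Nat.prime_iff.mp hI'.1).irreducible
  have hbot : I ≠ ⊥ := by
    rintro rfl
    have hI'' : (Ideal.absNorm (⊥ : Ideal (𝓞 F))).Prime := hI'.1
    rw [Ideal.absNorm_bot] at hI''
    exact Nat.not_prime_zero hI''
  exact ⟨⟨I, hprime, hbot⟩, rfl⟩

end

theorem cd_tsum_le (F : Type) [Field F] [NumberField F] (Q : ℕ → Prop) {s : ℝ} (hs : 1 < s)
    (f : HeightOneSpectrum (𝓞 F) → ℝ) (hf0 : ∀ 𝔮, 0 ≤ f 𝔮)
    (hf : ∀ 𝔮, f 𝔮 ≤ normWeight F s 𝔮.asIdeal)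
    (hfQ : ∀ 𝔮, ¬ Q (Ideal.absNorm 𝔮.asIdeal) → f 𝔮 = 0) :
    ∑' 𝔮, f 𝔮 ≤
      (∑' p : Nat.Primes,
        (open scoped Classical in if Q (p : ℕ) then (idealCount F p : ℝ) else 0) *
          ((p : ℕ) : ℝ) ^ (-s)) + highSum F s := by
  classical
  rw [← cd_tsum_cdWeight_eq F Q hs, cd_tsum_cdWeight_eq_tsum_prime F Q s]
  unfold highSum
  have hsf : Summable f :=
    Summable.of_nonneg_of_le hf0 hf (FrobDensity.summable_normWeight_prime F hs)
  have hs1 : Summable (fun 𝔭 : HeightOneSpectrum (𝓞 F) => cdWeight F Q s 𝔭.asIdeal) :=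
    (cd_summable_cdWeight F Q hs).comp_injective FrobDensity.asIdeal_injective
  have hs2 : Summable (fun 𝔭 : HeightOneSpectrum (𝓞 F) =>
      (if (Ideal.absNorm 𝔭.asIdeal).Prime then 0 else normWeight F s 𝔭.asIdeal)) := by
    refine Summable.of_nonneg_of_le (fun 𝔭 => ?_) (fun 𝔭 => ?_)
      (FrobDensity.summable_normWeight_prime F hs)
    · split_ifs
      · exact le_rfl
      · exact FrobDensity.normWeight_nonneg s 𝔭.asIdeal
    · split_ifs
      · exact FrobDensity.normWeight_nonneg s 𝔭.asIdeal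
      · exact le_rfl
  rw [← hs1.tsum_add hs2]
  refine hsf.tsum_le_tsum (fun 𝔮 => ?_) (hs1.add hs2)
  by_cases hp : (Ideal.absNorm 𝔮.asIdeal).Prime
  · rw [if_pos hp, add_zero]
    by_cases hQ : Q (Ideal.absNorm 𝔮.asIdeal)
    · have : cdWeight F Q s 𝔮.asIdeal = normWeight F s 𝔮.asIdeal :=
        Set.indicator_of_mem (show 𝔮.asIdeal ∈
          {I : Ideal (𝓞 F) | (Ideal.absNorm I).Prime ∧ Q (Ideal.absNorm I)} from ⟨hp, hQ⟩) _
      rw [this]
      exact hf 𝔮
    · rw [hfQ 𝔮 hQ]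
      exact cdWeight_nonneg s _
  · rw [if_neg hp]
    have : cdWeight F Q s 𝔮.asIdeal = 0 :=
      Set.indicator_of_notMem (show 𝔮.asIdeal ∉
        {I : Ideal (𝓞 F) | (Ideal.absNorm I).Prime ∧ Q (Ideal.absNorm I)} from
          fun h => hp h.1) _
    rw [this, zero_add]
    exact hf 𝔮

end Fermat.Agent.S48Cheb
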