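import Fermat.Agent.S48.Cheb.Defs
import Fermat.Agent.Lib.FrobDensity.FrobGen

/-!
# S48 P5 seat (C), helpers: Frobenius elements of a Galois extension of number fields (helper30)

* `cdFrob_exists` : for a nonzero prime `𝔭` of `F` there are a prime `P` of `K` over `𝔭` and
  `φ ∈ Gal(K/F)` with `φ x ≡ x ^ N𝔭 mod P`.
* `cdFrob_orderOf_of_inert` : if `N𝔭 = p` is prime and the residue degree of `𝔭` in `K` is
  `[K:F]`, then `φ` has order `[K:F]`.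
-/

set_option autoImplicit false

open NumberField

namespace Fermat.Agent.S48Cheb

variable {F K : Type} [Field F] [NumberField F] [Field K] [NumberField K] [Algebra F K]
  [IsGalois F K]

/-- Existence of Frobenius elements. -/
theorem cdFrob_exists (𝔭 : Ideal (𝓞 F)) (h𝔭 : 𝔭.IsPrime) (h𝔭0 : 𝔭 ≠ ⊥) :
    ∃ (P : Ideal (𝓞 K)) (φ : K ≃ₐ[F] K), P.IsPrime ∧ P ≠ ⊥ ∧ P.under (𝓞 F) = 𝔭 ∧
      ∀ x : 𝓞 K, φ • x - x ^ (Ideal.absNorm 𝔭) ∈ P := by
  have h𝔭max : 𝔭.IsMaximal := h𝔭.isMaximal h𝔭0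
  obtain ⟨P, hPmax, hPover⟩ :=
    Ideal.exists_maximal_ideal_liesOver_of_isIntegral (S := 𝓞 K) 𝔭
  have hP : P.IsPrime := hPmax.isPrime
  have hP𝔭 : P.under (𝓞 F) = 𝔭 := hPover.over.symm
  have hP0 : P ≠ ⊥ := Ideal.ne_bot_of_liesOver_of_ne_bot h𝔭0 P
  have : Finite (𝓞 K ⧸ P) := Ideal.finiteQuotientOfFreeOfNeBot P hP0
  obtain ⟨σ, hσ⟩ := IsArithFrobAt.exists_of_isInvariant (𝓞 F) (K ≃ₐ[F] K) P
  refine ⟨P, σ, hP, hP0, hP𝔭, fun x => ?_⟩
  have h := hσ x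
  rw [hP𝔭] at h
  have hcard : Nat.card (𝓞 F ⧸ 𝔭) = Ideal.absNorm 𝔭 := by
    rw [Ideal.absNorm_apply, Submodule.cardQuot_apply]
  rw [hcard] at h
  exact h

/-- A Frobenius element at a prime over an inert prime of prime norm generates the Galois
group: its order is `[K:F]`. -/
theorem cdFrob_orderOf_of_inert {p : ℕ} (hp : p.Prime) (𝔭 : Ideal (𝓞 F))
    (hN : Ideal.absNorm 𝔭 = p) (hf : 𝔭.inertiaDegIn (𝓞 K) = Module.finrank F K)
    (P : Ideal (𝓞 K)) (hP : P.IsPrime) (hPover : P.under (𝓞 F) = 𝔭) (φ : K ≃ₐ[F] K)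
    (hφ : ∀ x : 𝓞 K, φ • x - x ^ p ∈ P) : orderOf φ = Module.finrank F K := by
  classical
  have h𝔭prime : 𝔭.IsPrime :=
    Ideal.isPrime_of_irreducible_absNorm (by rw [hN]; exact hp)
  have h𝔭ne : 𝔭 ≠ ⊥ := by
    rintro rfl
    rw [Ideal.absNorm_bot] at hN
    exact hp.ne_zero hN.symm
  have h𝔭max : 𝔭.IsMaximal := h𝔭prime.isMaximal h𝔭ne
  have hlies : P.LiesOver 𝔭 := ⟨hPover.symm⟩
  have hPne : P ≠ ⊥ := Ideal.ne_bot_of_liesOver_of_ne_bot h𝔭ne P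
  have hPmax : P.IsMaximal := hP.isMaximal hPne
  have hfin : Finite (𝓞 K ⧸ P) := Ideal.finiteQuotientOfFreeOfNeBot P hPne
  have hcardP : Nat.card (𝓞 K ⧸ P) = p ^ Module.finrank F K := by
    have h1 := Ideal.absNorm_eq_pow_inertiaDeg'_of_liesOver P 𝔭 h𝔭prime h𝔭ne
    rw [Ideal.inertiaDeg'_eq_inertiaDeg 𝔭 P,
      ← Ideal.inertiaDegIn_eq_inertiaDeg 𝔭 P (K ≃ₐ[F] K), hf, hN] at h1
    rw [← h1, Ideal.absNorm_apply, Submodule.cardQuot_apply]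
  have hm0 : orderOf φ ≠ 0 := (orderOf_pos _).ne'
  have hdvd : orderOf φ ∣ Module.finrank F K := by
    rw [← IsGalois.card_aut_eq_finrank F K]
    exact orderOf_dvd_natCard φ
  have hle : Module.finrank F K ≤ orderOf φ := by
    let _ : Field (𝓞 K ⧸ P) := Ideal.Quotient.field P
    refine Fermat.Agent.FrobDensity.frobGen_le_of_pow_eq (k := 𝓞 K ⧸ P) hp hcardP hm0
      fun y => ?_
    obtain ⟨x, rfl⟩ := Ideal.Quotient.mk_surjective y
    have h1 := Fermat.Agent.FrobDensity.frobGen_pow_congr P φ p hφ (orderOf φ) x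
    rw [pow_orderOf_eq_one, one_smul] at h1
    rw [← map_pow]
    exact ((Ideal.Quotient.eq).mpr h1).symm
  exact le_antisymm (Nat.le_of_dvd Module.finrank_pos hdvd) hle

end Fermat.Agent.S48Cheb
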