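import Mathlib

/-!
# S48 P5 seat (C), helpers: the squares of the image of an injective character (helper30)

`χ : G →* (ZMod t)ˣ` injective, `t` an odd prime, `-1 ∈ im χ`.  `cdSq χ = {χ(σ)²}`.
* `cdSqKer_card` : the kernel of `σ ↦ χ(σ)²` has two elements;
* `cdSq_card` : `2 * #(cdSq χ) = #G`;
* `cdSq_le_of_orderOf` : if `φ` has order `#G`, every `χ(σ)²` is a power of `χ(φ)²`.
-/

set_option autoImplicit false

namespace Fermat.Agent.S48Cheb

variable {t : ℕ} {G : Type*} [Group G]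

/-- `σ ↦ χ(σ)²`. -/
def cdSqHom (χ : G →* (ZMod t)ˣ) : G →* (ZMod t)ˣ := (powMonoidHom 2).comp χ

theorem cdSqHom_apply (χ : G →* (ZMod t)ˣ) (σ : G) : cdSqHom χ σ = χ σ ^ 2 := rfl

/-- The group of the squares `χ(σ)²`. -/
def cdSq (χ : G →* (ZMod t)ˣ) : Subgroup (ZMod t)ˣ := (cdSqHom χ).range

theorem mem_cdSq {χ : G →* (ZMod t)ˣ} {u : (ZMod t)ˣ} : u ∈ cdSq χ ↔ ∃ σ, χ σ ^ 2 = u :=
  Iff.rfl

/-- In `(ℤ/t)ˣ`, `t` prime: `x² = 1` iff `x = ± 1`. -/
theorem cd_sq_eq_one_iff [Fact t.Prime] (x : (ZMod t)ˣ) : x ^ 2 = 1 ↔ x = 1 ∨ x = -1 := by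
  constructor
  · intro h
    have h1 : ((x : (ZMod t)ˣ) : ZMod t) ^ 2 = 1 := by
      rw [← Units.val_pow_eq_pow_val, h, Units.val_one]
    have h2 : ((x : ZMod t) - 1) * ((x : ZMod t) + 1) = 0 := by
      linear_combination h1
    rcases mul_eq_zero.1 h2 with h3 | h3
    · left
      ext
      rw [Units.val_one]
      exact sub_eq_zero.1 h3
    · right
      ext
      rw [Units.val_neg, Units.val_one]
      exact eq_neg_of_add_eq_zero_left h3
  · rintro (rfl | rfl) <;> simp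

theorem cd_neg_one_ne_one [Fact t.Prime] (ht2 : t ≠ 2) : (-1 : (ZMod t)ˣ) ≠ 1 := by
  intro h
  have h1 : ((-1 : (ZMod t)ˣ) : ZMod t) = 1 := by rw [h, Units.val_one]
  rw [Units.val_neg, Units.val_one] at h1
  have h2 : (2 : ZMod t) = 0 := by
    have : (1 : ZMod t) + 1 = 0 := by
      nth_rw 1 [← h1]
      ring
    rw [← this]
    norm_num
  have h3 : ((2 : ℕ) : ZMod t) = 0 := by exact_mod_cast h2
  rw [ZMod.natCast_eq_zero_iff] at h3
  have ht : t.Prime := Fact.out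
  exact ht2 ((Nat.prime_dvd_prime_iff_eq ht Nat.prime_two).1 h3)

/-- The kernel of `σ ↦ χ(σ)²` is `{1, σ₋₁}`. -/
theorem cdSqHom_ker_eq [Fact t.Prime] {χ : G →* (ZMod t)ˣ} (hχ : Function.Injective χ)
    {τ : G} (hτ : χ τ = -1) : (cdSqHom χ).ker = Subgroup.zpowers τ := by
  ext σ
  rw [MonoidHom.mem_ker, cdSqHom_apply, cd_sq_eq_one_iff]
  constructor
  · rintro (h | h)
    · have : σ = 1 := hχ (by rw [h, map_one])
      rw [this]
      exact one_mem _
    · have : σ = τ := hχ (by rw [h, hτ])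
      rw [this]
      exact Subgroup.mem_zpowers τ
  · intro h
    obtain ⟨k, rfl⟩ := Subgroup.mem_zpowers_iff.1 h
    rw [map_zpow, hτ]
    rcases Int.even_or_odd k with hk | hk
    · left
      exact Even.neg_one_zpow hk
    · right
      exact Odd.neg_one_zpow hk

theorem cdSqHom_ker_card [Fact t.Prime] (ht2 : t ≠ 2) {χ : G →* (ZMod t)ˣ}
    (hχ : Function.Injective χ) {τ : G} (hτ : χ τ = -1) : Nat.card (cdSqHom χ).ker = 2 := by
  rw [cdSqHom_ker_eq hχ hτ, Nat.card_zpowers, ← orderOf_injective χ hχ τ, hτ]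
  rw [orderOf_eq_iff (by norm_num)]
  refine ⟨by simp, fun m hm hm0 => ?_⟩
  have hm1 : m = 1 := by omega
  subst hm1
  simpa using cd_neg_one_ne_one ht2

/-- `2 * #{χ(σ)²} = #G`. -/
theorem cdSq_card [Finite G] [Fact t.Prime] (ht2 : t ≠ 2) {χ : G →* (ZMod t)ˣ}
    (hχ : Function.Injective χ) {τ : G} (hτ : χ τ = -1) :
    2 * Nat.card (cdSq χ) = Nat.card G := by
  have h1 := Subgroup.card_mul_index (cdSqHom χ).ker
  rw [Subgroup.index_ker, cdSqHom_ker_card ht2 hχ hτ] at h1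
  exact h1

/-- If `φ` generates `G`, every `χ(σ)²` is a power of `χ(φ)²`. -/
theorem cdSq_le_of_orderOf [Finite G] {χ : G →* (ZMod t)ˣ} {φ : G}
    (hφ : orderOf φ = Nat.card G) (H : Subgroup (ZMod t)ˣ) (hH : χ φ ^ 2 ∈ H) : cdSq χ ≤ H := by
  rintro u ⟨σ, rfl⟩
  have hσ : σ ∈ Subgroup.zpowers φ := by
    have htop : Subgroup.zpowers φ = ⊤ := by
      apply Subgroup.eq_top_of_card_eq
      rw [Nat.card_zpowers, hφ]
    rw [htop]
    exact Subgroup.mem_top σ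
  obtain ⟨k, rfl⟩ := Subgroup.mem_zpowers_iff.1 hσ
  rw [cdSqHom_apply, map_zpow, ← zpow_natCast, ← zpow_mul, mul_comm, zpow_mul, zpow_natCast]
  exact H.zpow_mem hH k

end Fermat.Agent.S48Cheb
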