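import Fermat.Agent.S48.Cheb.Defs
import Fermat.Agent.S48.Cheb.CycDensity.Frob
import Fermat.Agent.S48.Cheb.CycDensity.Group
import Fermat.Agent.Lib.FrobDensity.Cyclic
import Fermat.Agent.F4.Recip.CoprimeNorm

/-!
# S48 P5 seat (C), helpers: the norms of the ideals of `F` modulo `t` (helper30)

`K/F` Galois, `ζ ∈ K` a primitive `t`-th root of unity, `χ : Gal(K/F) → (ℤ/t)ˣ` the cyclotomic
character (injective, `-1` in the image).
* `cd_normSqGroup_eq` : `normSqGroup F t = cdSq χ` (the squares of the values of `χ`);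
* `cd_normM_sq` : for `M` the fixed field of a subgroup of the kernel of `σ ↦ χ(σ)²`, the norms
  of the ideals of `M` prime to `t` are `± 1` modulo `t`.
-/

set_option autoImplicit false

open NumberField

namespace Fermat.Agent.S48Cheb

/-- If `N ∈ P` and `N` is prime to `t`, then `t ∉ P`. -/
theorem cd_natCast_notMem {R : Type*} [CommRing R] (P : Ideal R) (hP : P.IsPrime) {N t : ℕ}
    (hN : (N : R) ∈ P) (hcop : N.Coprime t) : (t : R) ∉ P := by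
  intro htP
  have h1 : ((Nat.gcd N t : ℤ) : R) ∈ P := by
    rw [Nat.gcd_eq_gcd_ab]
    push_cast
    exact P.add_mem (P.mul_mem_right _ hN) (P.mul_mem_right _ htP)
  rw [hcop] at h1
  apply hP.ne_top
  rw [Ideal.eq_top_iff_one]
  simpa using h1

/-- An ideal whose absolute norm is prime to `t` is prime to `(t)`. -/
theorem cd_sup_span_eq_top {E : Type} [Field E] [NumberField E] {I : Ideal (𝓞 E)} {t : ℕ}
    (h : (Ideal.absNorm I).Coprime t) : I ⊔ Ideal.span {(t : 𝓞 E)} = ⊤ := by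
  by_contra hne
  obtain ⟨P, hP, hle⟩ := Ideal.exists_le_maximal _ hne
  have h1 : ((Ideal.absNorm I : ℕ) : 𝓞 E) ∈ P := hle (Ideal.mem_sup_left (Ideal.absNorm_mem I))
  have h2 : (t : 𝓞 E) ∈ P := hle (Ideal.mem_sup_right (Ideal.subset_span rfl))
  exact cd_natCast_notMem P hP.isPrime h1 h h2

section

variable {F K : Type} [Field F] [NumberField F] [Field K] [NumberField K] [Algebra F K]
  {t : ℕ}

/-- A Frobenius element `φ` at a prime `P` of `K` over the prime `𝔭` of `F` (prime to `t`)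
satisfies `χ φ = N𝔭` in `ℤ/t`. -/
theorem cd_frob_norm (hC2 : CycArtin) (ht : t.Prime) {ζ : K} (hζ : IsPrimitiveRoot ζ t)
    (𝔭 : Ideal (𝓞 F)) (hcop : (Ideal.absNorm 𝔭).Coprime t)
    (P : Ideal (𝓞 K)) (hP : P.IsPrime) (hP𝔭 : P.under (𝓞 F) = 𝔭) (φ : K ≃ₐ[F] K)
    (hφ : ∀ x : 𝓞 K, φ • x - x ^ (Ideal.absNorm 𝔭) ∈ P) (u : (ZMod t)ˣ)
    (hu : φ ζ = ζ ^ ((u : (ZMod t)ˣ) : ZMod t).val) :
    ((Ideal.absNorm 𝔭 : ℕ) : ZMod t) = ((u : (ZMod t)ˣ) : ZMod t) := by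
  have hNP : ((Ideal.absNorm 𝔭 : ℕ) : 𝓞 K) ∈ P := by
    have h1 : ((Ideal.absNorm 𝔭 : ℕ) : 𝓞 F) ∈ P.under (𝓞 F) := by
      rw [hP𝔭]
      exact Ideal.absNorm_mem 𝔭
    rw [Ideal.under_def, Ideal.mem_comap, map_natCast] at h1
    exact h1
  have htP := cd_natCast_notMem P hP hNP hcop
  have h := hC2 F K t ht ζ hζ P hP htP φ (Ideal.absNorm 𝔭) _ hφ hu
  have : NeZero t := ⟨ht.ne_zero⟩
  rw [h, ZMod.natCast_zmod_val]

variable [IsGalois F K]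

/-- The norm of an ideal of `F` prime to `t` is a value of `χ`. -/
theorem cd_norm_mem (hC2 : CycArtin) (ht : t.Prime) {ζ : K} (hζ : IsPrimitiveRoot ζ t)
    (χ : (K ≃ₐ[F] K) →* (ZMod t)ˣ)
    (hχ : ∀ σ : K ≃ₐ[F] K, σ ζ = ζ ^ ((χ σ : (ZMod t)ˣ) : ZMod t).val)
    (I : Ideal (𝓞 F)) : (Ideal.absNorm I).Coprime t →
      ∃ φ : K ≃ₐ[F] K, ((Ideal.absNorm I : ℕ) : ZMod t) = ((χ φ : (ZMod t)ˣ) : ZMod t) := by
  induction I using UniqueFactorizationMonoid.induction_on_prime with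
  | h₁ =>
    intro hcop
    have h0 : Ideal.absNorm (0 : Ideal (𝓞 F)) = 0 := by
      rw [Ideal.zero_eq_bot, Ideal.absNorm_bot]
    rw [h0] at hcop
    have ht1 : t = 1 := by simpa using hcop
    exact absurd ht1 ht.ne_one
  | h₂ J hJu =>
    intro _
    have hJ : J = ⊤ := by
      rw [← Ideal.one_eq_top]
      exact isUnit_iff_eq_one.mp hJu
    refine ⟨1, ?_⟩
    rw [hJ, Ideal.absNorm_top, Nat.cast_one, map_one, Units.val_one]
  | h₃ J 𝔓 hJ0 h𝔓 ih =>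
    intro hcop
    have hnorm : Ideal.absNorm (𝔓 * J) = Ideal.absNorm 𝔓 * Ideal.absNorm J := map_mul _ _ _
    rw [hnorm] at hcop ⊢
    have hcop𝔓 : (Ideal.absNorm 𝔓).Coprime t := Nat.Coprime.coprime_mul_right hcop
    have hcopJ : (Ideal.absNorm J).Coprime t := Nat.Coprime.coprime_mul_left hcop
    obtain ⟨φJ, hφJ⟩ := ih hcopJ
    obtain ⟨P, φ, hP, _, hP𝔭, hφ⟩ :=
      cdFrob_exists (K := K) 𝔓 (Ideal.isPrime_of_prime h𝔓) h𝔓.ne_zero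
    have h1 := cd_frob_norm hC2 ht hζ 𝔓 hcop𝔓 P hP hP𝔭 φ hφ (χ φ) (hχ φ)
    refine ⟨φ * φJ, ?_⟩
    rw [Nat.cast_mul, map_mul, Units.val_mul, h1, hφJ]

/-- `G_F ⊆ (im χ)²`. -/
theorem cd_normSqGroup_le (hC2 : CycArtin) (ht : t.Prime) {ζ : K} (hζ : IsPrimitiveRoot ζ t)
    (χ : (K ≃ₐ[F] K) →* (ZMod t)ˣ)
    (hχ : ∀ σ : K ≃ₐ[F] K, σ ζ = ζ ^ ((χ σ : (ZMod t)ˣ) : ZMod t).val) :
    normSqGroup F t ≤ cdSq χ := by
  rw [normSqGroup, Subgroup.closure_le]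
  rintro u ⟨I, _, hI, hu⟩
  obtain ⟨φ, hφ⟩ := cd_norm_mem hC2 ht hζ χ hχ I (Fermat.Agent.F4Rec.coprimeAbsNorm F t I hI)
  refine ⟨φ, ?_⟩
  ext
  rw [cdSqHom_apply, Units.val_pow_eq_pow_val, ← hφ, hu]

/-- `(im χ)² ⊆ G_F`. -/
theorem cd_cdSq_le (hC2 : CycArtin) (ht : t.Prime) {ζ : K} (hζ : IsPrimitiveRoot ζ t)
    (χ : (K ≃ₐ[F] K) →* (ZMod t)ˣ)
    (hχ : ∀ σ : K ≃ₐ[F] K, σ ζ = ζ ^ ((χ σ : (ZMod t)ˣ) : ZMod t).val)
    (hinj : Function.Injective χ) : cdSq χ ≤ normSqGroup F t := by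
  have : Fact t.Prime := ⟨ht⟩
  have hcyc : IsCyclic (K ≃ₐ[F] K) := isCyclic_of_injective χ hinj
  have hS : ({q : Nat.Primes | (q : ℕ) = t} : Set Nat.Primes).Finite := by
    refine Set.Subsingleton.finite ?_
    intro q hq q' hq'
    exact Subtype.ext (hq.trans hq'.symm)
  obtain ⟨p, 𝔭, hpS, hN, hf⟩ := Fermat.Agent.FrobDensity.exists_inert F K _ hS
  have hpt : (p : ℕ) ≠ t := hpS
  have h𝔭prime : 𝔭.IsPrime :=
    Ideal.isPrime_of_irreducible_absNorm (by rw [hN]; exact p.2)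
  have h𝔭0 : 𝔭 ≠ ⊥ := by
    rintro rfl
    rw [Ideal.absNorm_bot] at hN
    exact p.2.ne_zero hN.symm
  have hcop : (Ideal.absNorm 𝔭).Coprime t := by
    rw [hN]
    exact (Nat.coprime_primes p.2 ht).2 hpt
  obtain ⟨P, φ, hP, _, hP𝔭, hφ⟩ := cdFrob_exists (K := K) 𝔭 h𝔭prime h𝔭0
  have hord : orderOf φ = Nat.card (K ≃ₐ[F] K) := by
    rw [IsGalois.card_aut_eq_finrank]
    refine cdFrob_orderOf_of_inert p.2 𝔭 hN hf P hP hP𝔭 φ ?_
    rw [← hN]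
    exact hφ
  have h1 := cd_frob_norm hC2 ht hζ 𝔭 hcop P hP hP𝔭 φ hφ (χ φ) (hχ φ)
  refine cdSq_le_of_orderOf hord _ ?_
  refine Subgroup.subset_closure ⟨𝔭, h𝔭0, cd_sup_span_eq_top hcop, ?_⟩
  rw [Units.val_pow_eq_pow_val, h1]

/-- `G_F = (im χ)²`. -/
theorem cd_normSqGroup_eq (hC2 : CycArtin) (ht : t.Prime) {ζ : K} (hζ : IsPrimitiveRoot ζ t)
    (χ : (K ≃ₐ[F] K) →* (ZMod t)ˣ)
    (hχ : ∀ σ : K ≃ₐ[F] K, σ ζ = ζ ^ ((χ σ : (ZMod t)ˣ) : ZMod t).val)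
    (hinj : Function.Injective χ) : normSqGroup F t = cdSq χ :=
  le_antisymm (cd_normSqGroup_le hC2 ht hζ χ hχ) (cd_cdSq_le hC2 ht hζ χ hχ hinj)

end

end Fermat.Agent.S48Cheb
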